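import Fermat.Agent.TarskiSeidenberg.Orderings
import Fermat.Agent.HilbertSeventeen.Main

/-!
# The Positivstellensatz of Krivine and Stengle and the real Nullstellensatz
-/

set_option autoImplicit false
set_option linter.unusedSectionVars false
set_option linter.style.haveILetI false

noncomputable section

namespace Fermat.Agent.TarskiSeidenberg

open MvPolynomial Fermat.Agent.HilbertSeventeen

universe u

variable {R : Type u} [Field R] [LinearOrder R] [IsStrictOrderedRing R] {n : ℕ}

/-- The set where all members of `G` are nonnegative. -/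
def basicSet (G : Finset (MvPolynomial (Fin n) R)) : Set (Fin n → R) :=
  {x | ∀ g ∈ G, 0 ≤ eval x g}

theorem eval_nonneg_of_mem {G : Finset (MvPolynomial (Fin n) R)} {z : MvPolynomial (Fin n) R}
    (h : z ∈ genCone (G : Set (MvPolynomial (Fin n) R))) {x : Fin n → R} (hx : x ∈ basicSet G) :
    0 ≤ eval x z := by
  induction h using Subsemiring.closure_induction with
  | mem y hy =>
    rcases hy with ⟨v, rfl⟩ | hy
    · rw [map_mul]; exact mul_self_nonneg _
    · exact hx y hy
  | zero => rw [map_zero]
  | one => rw [map_one]; exact zero_le_one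
  | add y z _ _ hy hz => rw [map_add]; exact add_nonneg hy hz
  | mul y z _ _ hy hz => rw [map_mul]; exact mul_nonneg hy hz

theorem genCone_insert_finset (G : Finset (MvPolynomial (Fin n) R))
    (a : MvPolynomial (Fin n) R) [DecidableEq (MvPolynomial (Fin n) R)] :
    genCone ((insert a G : Finset (MvPolynomial (Fin n) R)) : Set (MvPolynomial (Fin n) R)) =
      genCone (insert a (G : Set (MvPolynomial (Fin n) R))) := by
  rw [Finset.coe_insert]

variable [PolyIVT R]

/-- An empty basic set is witnessed by `-1` in the preordering. -/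
theorem neg_one_mem_of_empty (G : Finset (MvPolynomial (Fin n) R)) (h : basicSet G = ∅) :
    -1 ∈ genCone (G : Set (MvPolynomial (Fin n) R)) := by
  classical
  by_contra hne
  let P : RingPreordering (MvPolynomial (Fin n) R) :=
    { genCone (G : Set (MvPolynomial (Fin n) R)) with
      mem_of_isSquare' := fun hx => isSquare_mem_genCone hx
      neg_one_notMem' := hne }
  obtain ⟨O, hPO, hO⟩ := exists_isOrdering_ge P
  obtain ⟨R', _, _, _, _, χ, hχ⟩ := exists_nonneg_point O G.toList fun x hx =>
    hPO (show x ∈ P from subset_genCone (G := (G : Set (MvPolynomial (Fin n) R)))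
      (Finset.mem_toList.1 hx))
  have hev : χ = eval₂Hom (χ.comp C) fun i => χ (X i) :=
    ringHom_ext (fun b => by simp) fun i => by simp
  have hsign : ∀ b, SignType.sign ((χ.comp C) b) = SignType.sign ((RingHom.id R) b) := fun b => by
    exact (sign_eq_of_isSumSq (RingHom.id R) (fun c hc => (isSquare_of_nonneg hc).isSumSq)
      (χ.comp C) b).symm
  obtain ⟨y, hy⟩ := exists_point (χ.comp C) (RingHom.id R) hsign n G fun i => χ (X i)
  have : y ∈ basicSet G := fun g hg => by
    have h0 : 0 ≤ χ g := hχ g (Finset.mem_toList.2 hg)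
    rw [show χ g = eval₂Hom (χ.comp C) (fun i => χ (X i)) g from DFunLike.congr_fun hev g,
      coe_eval₂Hom, ← sign_nonneg_iff, hy g hg, sign_nonneg_iff, eval₂_id] at h0
    exact h0
  rw [h] at this
  exact this

/-- **The Positivstellensatz.** -/
theorem positivstellensatz (G : Finset (MvPolynomial (Fin n) R)) (f : MvPolynomial (Fin n) R) :
    (∀ x ∈ basicSet G, 0 < eval x f) ↔
      ∃ p ∈ genCone (G : Set (MvPolynomial (Fin n) R)),
        ∃ q ∈ genCone (G : Set (MvPolynomial (Fin n) R)), f * p = 1 + q := by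
  classical
  constructor
  · intro h
    have hempty : basicSet (insert (-f) G) = ∅ := Set.eq_empty_of_forall_notMem fun x hx => by
      have h1 := hx (-f) (Finset.mem_insert_self _ _)
      rw [map_neg, neg_nonneg] at h1
      exact (h x fun g hg => hx g (Finset.mem_insert_of_mem hg)).not_ge h1
    have := neg_one_mem_of_empty _ hempty
    rw [genCone_insert_finset] at this
    obtain ⟨q, hq, p, hp, e⟩ := exists_eq_of_mem_genCone_insert this
    exact ⟨p, hp, q, hq, by linear_combination e⟩
  · rintro ⟨p, hp, q, hq, e⟩ x hx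
    have e' := congrArg (eval x) e
    rw [map_mul, map_add, map_one] at e'
    have h1 := eval_nonneg_of_mem hp hx
    have h2 := eval_nonneg_of_mem hq hx
    nlinarith

/-- Rabinowitsch's trick: `f` vanishes on the basic set. -/
theorem eq_zero_on_iff (G : Finset (MvPolynomial (Fin n) R)) (f : MvPolynomial (Fin n) R) :
    (∀ x ∈ basicSet G, eval x f = 0) ↔
      ∃ k : ℕ, -f ^ (2 * k) ∈ genCone (G : Set (MvPolynomial (Fin n) R)) := by
  classical
  constructor
  · intro h
    rcases eq_or_ne f 0 with rfl | hf
    · exact ⟨1, by simp⟩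
    set am := algebraMap (MvPolynomial (Fin n) R) (FractionRing (MvPolynomial (Fin n) R))
    have hinj : Function.Injective am :=
      IsFractionRing.injective (MvPolynomial (Fin n) R) (FractionRing (MvPolynomial (Fin n) R))
    have hf0 : am f ≠ 0 := (map_ne_zero_iff _ hinj).2 hf
    set ι : (MvPolynomial (Fin n) R) →+* MvPolynomial (Fin (n + 1)) R := (rename Fin.succ).toRingHom
    set w : MvPolynomial (Fin (n + 1)) R := X 0 * ι f - 1
    set G' := G.image ι ∪ {w, -w}
    have hempty : basicSet G' = ∅ := Set.eq_empty_of_forall_notMem fun x hx => by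
      have hw : eval x w = 0 := le_antisymm
        (by simpa using hx (-w) (Finset.mem_union_right _ (by simp)))
        (hx w (Finset.mem_union_right _ (by simp)))
      have hev : ∀ g : MvPolynomial (Fin n) R,
          eval x (ι g) = eval (fun i => x i.succ) g := fun g => by
        show eval x (rename Fin.succ g) = _
        rw [eval_rename]
        rfl
      have h0 := h (fun i => x i.succ) fun g hg => by
        rw [← hev]
        exact hx _ (Finset.mem_union_left _ (Finset.mem_image_of_mem ι hg))
      simp [w, hev, h0] at hw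
    set ψ : MvPolynomial (Fin (n + 1)) R →+* FractionRing (MvPolynomial (Fin n) R) :=
      eval₂Hom (am.comp C) (Fin.cons (am f)⁻¹ fun i => am (X i))
    have hψ : ∀ g : (MvPolynomial (Fin n) R), ψ (ι g) = am g := fun g => by
      rw [← RingHom.comp_apply]
      exact DFunLike.congr_fun (ringHom_ext (f := ψ.comp ι) (g := am)
        (fun b => by simp [ψ, ι]) fun i => by simp [ψ, ι]) g
    have hψw : ψ w = 0 := by
      have h1 : ψ (X 0) = (am f)⁻¹ := by simp [ψ]
      simp only [w, map_sub, map_mul, map_one, hψ, h1, inv_mul_cancel₀ hf0, sub_self]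
    have hden : ∀ v, ∃ (k : ℕ) (a : (MvPolynomial (Fin n) R)), ψ v * am f ^ k = am a := fun v => by
      induction v using MvPolynomial.induction_on with
      | C b => exact ⟨0, C b, by simp [ψ]⟩
      | add p q hp hq =>
        obtain ⟨k, a, ha⟩ := hp
        obtain ⟨l, b, hb⟩ := hq
        refine ⟨k + l, a * f ^ l + b * f ^ k, ?_⟩
        simp only [map_add, map_mul, map_pow, ← ha, ← hb, pow_add]
        ring
      | mul_X p i hp =>
        obtain ⟨k, a, ha⟩ := hp
        refine Fin.cases ⟨k + 1, a, ?_⟩ (fun j => ⟨k, a * X j, ?_⟩) i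
        · rw [map_mul, ← ha, pow_succ, show ψ (X 0) = (am f)⁻¹ by simp [ψ],
            mul_mul_mul_comm, inv_mul_cancel₀ hf0, mul_one]
        · rw [map_mul, map_mul, ← ha, show ψ (X j.succ) = am (X j) by simp [ψ]]
          ring
    have hcone : ∀ z ∈ genCone (G' : Set (MvPolynomial (Fin (n + 1)) R)),
        ∃ k : ℕ, ∃ t ∈ genCone (G : Set (MvPolynomial (Fin n) R)), ψ z * am f ^ (2 * k) = am t := by
      intro z hz
      induction hz using Subsemiring.closure_induction with
      | mem z hz =>
        rcases hz with ⟨v, rfl⟩ | hz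
        · obtain ⟨k, a, ha⟩ := hden v
          refine ⟨k, a * a, isSquare_mem_genCone ⟨a, rfl⟩, ?_⟩
          rw [map_mul, map_mul, ← ha, two_mul, pow_add]
          ring
        · simp only [G', Finset.coe_union, Finset.coe_image, Finset.coe_insert,
            Finset.coe_singleton, Set.mem_union, Set.mem_image, Set.mem_insert_iff,
            Set.mem_singleton_iff] at hz
          rcases hz with ⟨g, hg, rfl⟩ | rfl | rfl
          · exact ⟨0, g, subset_genCone hg, by simp [hψ]⟩
          · exact ⟨0, 0, zero_mem _, by simp [hψw]⟩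
          · exact ⟨0, 0, zero_mem _, by simp [hψw]⟩
      | zero => exact ⟨0, 0, zero_mem _, by simp⟩
      | one => exact ⟨0, 1, one_mem _, by simp⟩
      | add y z _ _ hy hz =>
        obtain ⟨k, s, hs, es⟩ := hy
        obtain ⟨l, t, ht, et⟩ := hz
        have hsq : ∀ j : ℕ, f ^ (2 * j) ∈ genCone (G : Set (MvPolynomial (Fin n) R)) := fun j =>
          isSquare_mem_genCone ⟨f ^ j, by rw [two_mul, pow_add]⟩
        refine ⟨k + l, s * f ^ (2 * l) + t * f ^ (2 * k),
          add_mem (mul_mem hs (hsq l)) (mul_mem ht (hsq k)), ?_⟩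
        simp only [map_add, map_mul, map_pow, ← es, ← et, mul_add, pow_add]
        ring
      | mul y z _ _ hy hz =>
        obtain ⟨k, s, hs, es⟩ := hy
        obtain ⟨l, t, ht, et⟩ := hz
        refine ⟨k + l, s * t, mul_mem hs ht, ?_⟩
        simp only [map_mul, ← es, ← et, mul_add, pow_add]
        ring
    obtain ⟨k, t, ht, e⟩ := hcone _ (neg_one_mem_of_empty G' hempty)
    refine ⟨k, ?_⟩
    rw [map_neg, map_one, neg_one_mul, ← map_pow, ← map_neg] at e
    rwa [hinj e]
  · rintro ⟨k, hk⟩ x hx
    have h1 := eval_nonneg_of_mem hk hx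
    rw [map_neg, map_pow, neg_nonneg, pow_mul] at h1
    by_contra hne
    have : 0 < (eval x f ^ 2) ^ k := pow_pos (lt_of_le_of_ne (sq_nonneg _)
      (pow_ne_zero 2 hne).symm) k
    linarith

/-- **The Nichtnegativstellensatz.** -/
theorem nonneg_on_iff (G : Finset (MvPolynomial (Fin n) R)) (f : MvPolynomial (Fin n) R) :
    (∀ x ∈ basicSet G, 0 ≤ eval x f) ↔
      ∃ p ∈ genCone (G : Set (MvPolynomial (Fin n) R)),
        ∃ q ∈ genCone (G : Set (MvPolynomial (Fin n) R)), ∃ k : ℕ,
          f * p = f ^ (2 * k) + q := by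
  classical
  constructor
  · intro h
    obtain ⟨k, hk⟩ := (eq_zero_on_iff (insert (-f) G) f).1 fun x hx => by
      have h1 := hx (-f) (Finset.mem_insert_self _ _)
      rw [map_neg, neg_nonneg] at h1
      exact le_antisymm h1 (h x fun g hg => hx g (Finset.mem_insert_of_mem hg))
    rw [genCone_insert_finset] at hk
    obtain ⟨q, hq, p, hp, e⟩ := exists_eq_of_mem_genCone_insert hk
    exact ⟨p, hp, q, hq, k, by linear_combination e⟩
  · rintro ⟨p, hp, q, hq, k, e⟩ x hx
    have e' := congrArg (eval x) e
    rw [map_mul, map_add, map_pow, pow_mul] at e'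
    have h1 := eval_nonneg_of_mem hp hx
    have h2 := eval_nonneg_of_mem hq hx
    by_contra! hlt
    have : 0 < (eval x f ^ 2) ^ k := pow_pos (by nlinarith) k
    nlinarith [mul_nonpos_of_nonpos_of_nonneg hlt.le h1]

/-- **The real Nullstellensatz.** -/
theorem real_nullstellensatz (I : Ideal (MvPolynomial (Fin n) R)) (f : MvPolynomial (Fin n) R) :
    (∀ x : Fin n → R, (∀ g ∈ I, eval x g = 0) → eval x f = 0) ↔
      ∃ (k : ℕ) (σ : MvPolynomial (Fin n) R), IsSumSq σ ∧ f ^ (2 * k) + σ ∈ I := by
  classical
  constructor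
  · intro h
    obtain ⟨s, hs⟩ : I.FG := IsNoetherian.noetherian I
    obtain ⟨k, hk⟩ := (eq_zero_on_iff (s ∪ s.image Neg.neg) f).1 fun x hx => h x fun g hg => by
      rw [← hs] at hg
      induction hg using Submodule.span_induction with
      | mem g hg =>
        refine le_antisymm ?_ (hx g (Finset.mem_union_left _ hg))
        simpa using hx (-g) (Finset.mem_union_right _ (Finset.mem_image_of_mem _ hg))
      | zero => exact map_zero _
      | add a b _ _ ha hb => rw [map_add, ha, hb, add_zero]
      | smul c a _ ha => rw [smul_eq_mul, map_mul, ha, mul_zero]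
    have key : ∀ z ∈ genCone ((s ∪ s.image Neg.neg : Finset (MvPolynomial (Fin n) R)) :
        Set (MvPolynomial (Fin n) R)), ∃ σ, IsSumSq σ ∧ z - σ ∈ I := by
      intro z hz
      induction hz using Subsemiring.closure_induction with
      | mem z hz =>
        rcases hz with ⟨v, rfl⟩ | hz
        · exact ⟨v * v, IsSumSq.mul_self v, by simp⟩
        · refine ⟨0, IsSumSq.zero, ?_⟩
          rw [sub_zero]
          simp only [Finset.coe_union, Finset.coe_image, Set.mem_union, Set.mem_image] at hz
          rcases hz with hz | ⟨g, hg, rfl⟩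
          · exact hs ▸ Ideal.subset_span hz
          · exact I.neg_mem (hs ▸ Ideal.subset_span hg)
      | zero => exact ⟨0, IsSumSq.zero, by simp⟩
      | one => exact ⟨1, IsSumSq.one, by simp⟩
      | add y z _ _ hy hz =>
        obtain ⟨σ, hσ, h1⟩ := hy
        obtain ⟨τ, hτ, h2⟩ := hz
        exact ⟨σ + τ, hσ.add hτ, by simpa [add_sub_add_comm] using I.add_mem h1 h2⟩
      | mul y z _ _ hy hz =>
        obtain ⟨σ, hσ, h1⟩ := hy
        obtain ⟨τ, hτ, h2⟩ := hz
        refine ⟨σ * τ, hσ.mul hτ, ?_⟩
        rw [show y * z - σ * τ = y * (z - τ) + τ * (y - σ) by ring]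
        exact I.add_mem (I.mul_mem_left _ h2) (I.mul_mem_left _ h1)
    obtain ⟨σ, hσ, hmem⟩ := key _ hk
    exact ⟨k, σ, hσ, by simpa [neg_sub, add_comm] using I.neg_mem hmem⟩
  · rintro ⟨k, σ, hσ, hmem⟩ x hx
    have h1 := hx _ hmem
    rw [map_add, map_pow, pow_mul] at h1
    have h2 : 0 ≤ eval x σ := (isSumSq_map (eval x) hσ).nonneg
    by_contra hne
    have : 0 < (eval x f ^ 2) ^ k := pow_pos (lt_of_le_of_ne (sq_nonneg _)
      (pow_ne_zero 2 hne).symm) k
    linarith

end Fermat.Agent.TarskiSeidenberg
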