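import Fermat.Agent.HilbertSeventeen.IVTField

/-!
# Prime cones and the ordered fields above them

A preordering lies in an ordering; finitely many elements nonnegative at an ordering become
squares in a semireal field, hence nonnegative in a field with the intermediate value property.
-/

set_option autoImplicit false
set_option linter.style.haveILetI false

noncomputable section

namespace Fermat.Agent.TarskiSeidenberg

open Fermat.Agent.HilbertSeventeen

universe u

/-- The preordering generated by `G`. -/
def genCone {A : Type u} [CommRing A] (G : Set A) : Subsemiring A :=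
  Subsemiring.closure ({x | IsSquare x} ∪ G)

theorem isSquare_mem_genCone {A : Type u} [CommRing A] {G : Set A} {x : A} (h : IsSquare x) :
    x ∈ genCone G :=
  Subsemiring.subset_closure (Or.inl h)

theorem subset_genCone {A : Type u} [CommRing A] {G : Set A} {x : A} (h : x ∈ G) :
    x ∈ genCone G :=
  Subsemiring.subset_closure (Or.inr h)

theorem genCone_mono {A : Type u} [CommRing A] {G G' : Set A} (h : G ⊆ G') :
    genCone G ≤ genCone G' :=
  Subsemiring.closure_mono (Set.union_subset_union_right _ h)

theorem exists_eq_of_mem_genCone_insert {A : Type u} [CommRing A] {G : Set A} {a x : A}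
    (h : x ∈ genCone (insert a G)) : ∃ p ∈ genCone G, ∃ q ∈ genCone G, x = p + q * a := by
  induction h using Subsemiring.closure_induction with
  | mem y hy =>
    rcases hy with hy | rfl | hy
    · exact ⟨y, isSquare_mem_genCone hy, 0, zero_mem _, by rw [zero_mul, add_zero]⟩
    · exact ⟨0, zero_mem _, 1, one_mem _, by rw [zero_add, one_mul]⟩
    · exact ⟨y, subset_genCone hy, 0, zero_mem _, by rw [zero_mul, add_zero]⟩
  | zero => exact ⟨0, zero_mem _, 0, zero_mem _, by ring⟩
  | one => exact ⟨1, one_mem _, 0, zero_mem _, by ring⟩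
  | add x y _ _ hx hy =>
    obtain ⟨p, hp, q, hq, rfl⟩ := hx
    obtain ⟨r, hr, s, hs, rfl⟩ := hy
    exact ⟨p + r, add_mem hp hr, q + s, add_mem hq hs, by ring⟩
  | mul x y _ _ hx hy =>
    obtain ⟨p, hp, q, hq, rfl⟩ := hx
    obtain ⟨r, hr, s, hs, rfl⟩ := hy
    exact ⟨p * r + q * s * (a * a),
      add_mem (mul_mem hp hr) (mul_mem (mul_mem hq hs) (isSquare_mem_genCone ⟨a, rfl⟩)),
      p * s + q * r, add_mem (mul_mem hp hs) (mul_mem hq hr), by ring⟩

section commRing

variable {A : Type u} [CommRing A]

/-- **Every preordering lies in an ordering.** -/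
theorem exists_isOrdering_ge (P : RingPreordering A) :
    ∃ O : RingPreordering A, P ≤ O ∧ O.IsOrdering := by
  obtain ⟨O, hPO, hmax⟩ := zorn_le_nonempty₀ (Set.univ : Set (RingPreordering A))
    (fun c _ hc Q hQ => by
      refine ⟨RingPreordering.mk' {x | ∃ R ∈ c, x ∈ R} ?_ ?_ (fun x => ⟨Q, hQ, Q.mul_self_mem x⟩)
        ?_, Set.mem_univ _, fun R hR x hx => ⟨R, hR, hx⟩⟩
      · rintro x y ⟨R, hR, hx⟩ ⟨R', hR', hy⟩
        rcases hc.total hR hR' with h | h
        · exact ⟨R', hR', add_mem (h hx) hy⟩
        · exact ⟨R, hR, add_mem hx (h hy)⟩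
      · rintro x y ⟨R, hR, hx⟩ ⟨R', hR', hy⟩
        rcases hc.total hR hR' with h | h
        · exact ⟨R', hR', mul_mem (h hx) hy⟩
        · exact ⟨R, hR, mul_mem hx (h hy)⟩
      · rintro ⟨R, -, h⟩
        exact RingPreordering.neg_one_notMem R h) P (Set.mem_univ P)
  refine ⟨O, hPO, RingPreordering.isOrdering_iff.2 fun a b hab => ?_⟩
  have key : ∀ c : A, c ∉ O → ∃ p ∈ O, ∃ q ∈ O, -1 = p + q * c := by
    intro c hc
    by_contra! hno
    let O' : RingPreordering A := RingPreordering.mk' {x | ∃ p ∈ O, ∃ q ∈ O, x = p + q * c}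
      (by
        rintro _ _ ⟨p, hp, q, hq, rfl⟩ ⟨r, hr, s, hs, rfl⟩
        exact ⟨p + r, add_mem hp hr, q + s, add_mem hq hs, by ring⟩)
      (by
        rintro _ _ ⟨p, hp, q, hq, rfl⟩ ⟨r, hr, s, hs, rfl⟩
        exact ⟨p * r + q * s * (c * c),
          add_mem (mul_mem hp hr) (mul_mem (mul_mem hq hs) (O.mul_self_mem c)),
          p * s + q * r, add_mem (mul_mem hp hs) (mul_mem hq hr), by ring⟩)
      (fun x => ⟨x * x, O.mul_self_mem x, 0, zero_mem O, by ring⟩)
      (fun ⟨p, hp, q, hq, e⟩ => hno p hp q hq e)
    have hle : O ≤ O' := fun x hx => ⟨x, hx, 0, zero_mem O, by ring⟩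
    exact hc (hmax.2 (Set.mem_univ O') hle ⟨0, zero_mem O, 1, one_mem O, by ring⟩)
  by_contra! h
  obtain ⟨p, hp, q, hq, e⟩ := key a h.1
  obtain ⟨r, hr, s, hs, e'⟩ := key b h.2
  refine RingPreordering.neg_one_notMem O ?_
  have : p + r + p * r + q * s * -(a * b) = -1 := by
    linear_combination (-1 - r) * e + q * a * e'
  rw [← this]
  exact add_mem (add_mem (add_mem hp hr) (mul_mem hp hr)) (mul_mem (mul_mem hq hs) hab)

end commRing

/-- Finitely many elements of a positive cone become squares in a semireal field. -/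
theorem exists_semireal_squares {K : Type u} [Field K] (c : List K) :
    -1 ∉ genCone {x : K | x ∈ c} →
    ∃ (L : Type u) (_ : Field L) (_ : IsSemireal L) (g : K →+* L), ∀ x ∈ c, IsSquare (g x) := by
  induction hn : c.length generalizing K with
  | zero =>
    intro h
    rw [List.length_eq_zero_iff] at hn
    subst hn
    have key : ∀ s : K, IsSumSq s → s ∈ genCone {x : K | x ∈ ([] : List K)} := fun s hs => by
      induction hs with
      | zero => exact zero_mem _
      | sq_add a _ ih => exact add_mem (isSquare_mem_genCone ⟨a, rfl⟩) ih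
    exact ⟨K, inferInstance, IsSemireal.of_not_isSumSq_neg_one fun hs => h (key _ hs),
      RingHom.id K, fun x hx => by simp at hx⟩
  | succ m ih =>
    intro h
    obtain ⟨a, l, rfl⟩ := List.exists_cons_of_length_eq_add_one hn
    rw [List.length_cons, Nat.add_right_cancel_iff] at hn
    by_cases ha : IsSquare a
    · obtain ⟨L, i1, i2, g, hg⟩ := ih l hn fun h' =>
        h (genCone_mono (fun x hx => List.mem_cons_of_mem a hx) h')
      exact ⟨L, i1, i2, g, fun x hx => (List.mem_cons.1 hx).elim (fun e => e ▸ ha.map g) (hg x)⟩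
    have hirr := X_pow_sub_C_irreducible_of_prime Nat.prime_two (a := a)
      fun b hb => ha ⟨b, by rw [← sq]; exact hb.symm⟩
    have := Fact.mk hirr
    set q := Polynomial.X ^ 2 - Polynomial.C a with hq
    have hm : q.Monic := Polynomial.monic_X_pow_sub_C a two_ne_zero
    have hd : q.natDegree = 2 := Polynomial.natDegree_X_pow_sub_C
    have hr : AdjoinRoot.root q ^ 2 = AdjoinRoot.of q a := by
      have h0 := AdjoinRoot.eval₂_root q
      conv at h0 => lhs; arg 3; rw [hq]
      rw [Polynomial.eval₂_sub, Polynomial.eval₂_pow, Polynomial.eval₂_X, Polynomial.eval₂_C,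
        sub_eq_zero] at h0
      exact h0
    have hcoords : ∀ z : AdjoinRoot q, ∃ x y : K,
        z = AdjoinRoot.of q x + AdjoinRoot.of q y * AdjoinRoot.root q := fun z => by
      obtain ⟨p, rfl⟩ := AdjoinRoot.mk_surjective z
      have hdeg : (p %ₘ q).natDegree ≤ 1 := by
        have := Polynomial.natDegree_modByMonic_lt p hm fun e => by simp [e] at hd
        omega
      refine ⟨(p %ₘ q).coeff 0, (p %ₘ q).coeff 1, ?_⟩
      conv_lhs => rw [← Polynomial.modByMonic_add_div p q, map_add, map_mul, AdjoinRoot.mk_self,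
        zero_mul, add_zero, Polynomial.eq_X_add_C_of_natDegree_le_one hdeg]
      rw [map_add, map_mul, AdjoinRoot.mk_C, AdjoinRoot.mk_C, AdjoinRoot.mk_X, add_comm]
    obtain ⟨L, i1, i2, g, hg⟩ := ih (l.map (AdjoinRoot.of q)) (by rw [List.length_map, hn])
      fun h' => by
        -- the constant coordinate of an element of the cone lies in the cone
        have key : ∀ z ∈ genCone {z : AdjoinRoot q | z ∈ l.map (AdjoinRoot.of q)},
            ∃ x ∈ genCone {x : K | x ∈ a :: l}, ∃ y : K,
              z = AdjoinRoot.of q x + AdjoinRoot.of q y * AdjoinRoot.root q := by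
          intro z hz
          rw [genCone, Subsemiring.mem_closure_iff] at hz
          induction hz using AddSubmonoid.closure_induction with
          | mem z hz =>
            have hz' : ∃ w ∈ genCone {x : K | x ∈ a :: l}, ∃ v,
                z = AdjoinRoot.of q w * (v * v) := by
              induction hz using Submonoid.closure_induction with
              | mem z hz =>
                rcases hz with ⟨v, rfl⟩ | hz
                · exact ⟨1, one_mem _, v, by rw [map_one, one_mul]⟩
                · obtain ⟨w, hw, rfl⟩ := List.mem_map.1 hz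
                  exact ⟨w, subset_genCone (List.mem_cons_of_mem a hw), 1, by ring⟩
              | one => exact ⟨1, one_mem _, 1, by rw [map_one]; ring⟩
              | mul y z _ _ hy hz =>
                obtain ⟨w, hw, v, rfl⟩ := hy
                obtain ⟨w', hw', v', rfl⟩ := hz
                exact ⟨w * w', mul_mem hw hw', v * v', by rw [map_mul]; ring⟩
            obtain ⟨w, hw, v, rfl⟩ := hz'
            obtain ⟨x, y, rfl⟩ := hcoords v
            refine ⟨w * (x * x + a * (y * y)), mul_mem hw (add_mem (isSquare_mem_genCone ⟨x, rfl⟩)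
              (mul_mem (subset_genCone List.mem_cons_self) (isSquare_mem_genCone ⟨y, rfl⟩))),
              w * (2 * x * y), ?_⟩
            simp only [map_mul, map_add, map_ofNat]
            linear_combination (AdjoinRoot.of q w * AdjoinRoot.of q y ^ 2) * hr
          | zero => exact ⟨0, zero_mem _, 0, by simp⟩
          | add y z _ _ hy hz =>
            obtain ⟨x, hx, y', rfl⟩ := hy
            obtain ⟨x', hx', y'', rfl⟩ := hz
            exact ⟨x + x', add_mem hx hx', y' + y'', by rw [map_add, map_add]; ring⟩
        obtain ⟨x, hx, y, e⟩ := key _ h'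
        refine h ?_
        have e0 : AdjoinRoot.mk q (Polynomial.C y * Polynomial.X + Polynomial.C (x + 1)) = 0 := by
          rw [map_add, map_mul, AdjoinRoot.mk_C, AdjoinRoot.mk_C, AdjoinRoot.mk_X, map_add,
            map_one]
          linear_combination -e
        rw [AdjoinRoot.mk_eq_zero] at e0
        have e1 := Polynomial.eq_zero_of_dvd_of_natDegree_lt e0 (by
          rw [hd]
          exact (Polynomial.natDegree_linear_le).trans_lt (by norm_num))
        have e2 := congrArg (fun p : Polynomial K => p.coeff 0) e1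
        simp at e2
        rwa [show x = -1 by linear_combination e2] at hx
    refine ⟨L, i1, i2, g.comp (AdjoinRoot.of q), fun x hx => ?_⟩
    rcases List.mem_cons.1 hx with rfl | hx
    · exact ⟨g (AdjoinRoot.root q), by rw [← map_mul, ← sq, hr]; rfl⟩
    · exact hg _ (List.mem_map_of_mem hx)

/-- **Finitely many members of an ordering are nonnegative at a point of a larger field.** -/
theorem exists_nonneg_point {A : Type u} [CommRing A] (O : RingPreordering A) [O.IsOrdering]
    (l : List A) (hl : ∀ x ∈ l, x ∈ O) :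
    ∃ (R : Type u) (_ : Field R) (_ : LinearOrder R) (_ : IsStrictOrderedRing R) (_ : PolyIVT R)
      (χ : A →+* R), ∀ x ∈ l, 0 ≤ χ x := by
  let K := FractionRing (A ⧸ O.support)
  set φ : A →+* K := (algebraMap (A ⧸ O.support) K).comp (Ideal.Quotient.mk O.support)
  have hker : ∀ x, φ x = 0 ↔ x ∈ O.support := fun x => by
    rw [RingHom.comp_apply, map_eq_zero_iff _ (IsFractionRing.injective (A ⧸ O.support) K),
      Ideal.Quotient.eq_zero_iff_mem]
  have hcone : ∀ z ∈ genCone (φ '' (O : Set A)),
      ∃ q ∉ O.support, ∃ o ∈ O, z * (φ q * φ q) = φ o := by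
    intro z hz
    have hone : (1 : A) ∉ O.support := RingPreordering.one_notMem_support O
    induction hz using Subsemiring.closure_induction with
    | mem z hz =>
      rcases hz with ⟨v, rfl⟩ | ⟨o, ho, rfl⟩
      · obtain ⟨c, d, hd, rfl⟩ := IsFractionRing.div_surjective (A := A ⧸ O.support) v
        obtain ⟨c, rfl⟩ := Ideal.Quotient.mk_surjective c
        obtain ⟨d, rfl⟩ := Ideal.Quotient.mk_surjective d
        have hd' : d ∉ O.support := fun h =>
          nonZeroDivisors.ne_zero hd (Ideal.Quotient.eq_zero_iff_mem.2 h)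
        have hd0 : φ d ≠ 0 := fun e => hd' ((hker d).1 e)
        refine ⟨d, hd', c * c, O.mul_self_mem c, ?_⟩
        show φ c / φ d * (φ c / φ d) * (φ d * φ d) = φ (c * c)
        rw [map_mul, div_mul_div_comm, div_mul_cancel₀ _ (mul_ne_zero hd0 hd0)]
      · exact ⟨1, hone, o, ho, by rw [map_one, one_mul, mul_one]⟩
    | zero => exact ⟨1, hone, 0, zero_mem _, by rw [map_zero, zero_mul]⟩
    | one => exact ⟨1, hone, 1, one_mem _, by rw [map_one, one_mul, mul_one]⟩
    | add y z _ _ hy hz =>
      obtain ⟨q, hq, o, ho, e⟩ := hy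
      obtain ⟨q', hq', o', ho', e'⟩ := hz
      refine ⟨q * q', Ideal.IsPrime.mul_notMem inferInstance hq hq',
        o * (q' * q') + o' * (q * q), add_mem (mul_mem ho (O.mul_self_mem q'))
          (mul_mem ho' (O.mul_self_mem q)), ?_⟩
      simp only [map_mul, map_add, ← e, ← e']
      ring
    | mul y z _ _ hy hz =>
      obtain ⟨q, hq, o, ho, e⟩ := hy
      obtain ⟨q', hq', o', ho', e'⟩ := hz
      refine ⟨q * q', Ideal.IsPrime.mul_notMem inferInstance hq hq', o * o', mul_mem ho ho', ?_⟩
      simp only [map_mul, ← e, ← e']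
      ring
  have hneg : (-1 : K) ∉ genCone (φ '' (O : Set A)) := fun h => by
    obtain ⟨q, hq, o, ho, e⟩ := hcone _ h
    have hs : o + q * q ∈ O.support := (hker _).1 (by
      rw [map_add, map_mul, ← e]; ring)
    have h2 : -(q * q) ∈ O := by
      rw [show -(q * q) = -(o + q * q) + o by ring]
      exact add_mem (RingPreordering.mem_support.1 hs).2 ho
    have h3 : q * q ∈ O.support := RingPreordering.mem_support.2 ⟨O.mul_self_mem q, h2⟩
    exact hq ((Ideal.IsPrime.mem_or_mem inferInstance h3).elim id id)
  obtain ⟨L, _, _, g, hg⟩ := exists_semireal_squares (l.map φ) fun h => hneg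
    (genCone_mono (fun x hx => by
      obtain ⟨a, ha, rfl⟩ := List.mem_map.1 hx
      exact ⟨a, hl a ha, rfl⟩) h)
  obtain ⟨R, _, _, _, _, ⟨ψ⟩⟩ := exists_polyIVT_extension L
  refine ⟨R, inferInstance, inferInstance, inferInstance, inferInstance,
    ψ.comp (g.comp φ), fun x hx => ?_⟩
  obtain ⟨v, hv⟩ := hg _ (List.mem_map_of_mem hx)
  rw [RingHom.comp_apply, RingHom.comp_apply, hv, map_mul]
  exact mul_self_nonneg _

end Fermat.Agent.TarskiSeidenberg
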