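import Fermat.Agent.TarskiSeidenberg.Elimination

/-!
# The theory of real closed fields and definable sets

The first-order theory of real closed fields is complete; the sets definable with parameters in a
real closed field are semialgebraic, so `ℕ` is not definable in `ℝ`.
-/

set_option autoImplicit false
set_option linter.unusedSectionVars false
set_option linter.style.haveILetI false

noncomputable section

namespace Fermat.Agent.TarskiSeidenberg

open FirstOrder FirstOrder.Ring FirstOrder.Field FirstOrder.Language
open Fermat.Agent.HilbertSeventeen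

/-- `a` or `-a` is a square. -/
def squareOrNegAxiom : Language.ring.Sentence :=
  ∀' ∃' (((&1 * &1) =' &0) ⊔ ((&1 * &1) =' (-&0)))

/-- A sum of two squares is a square. -/
def pythagoreanAxiom : Language.ring.Sentence :=
  ∀' ∀' ∃' ((&2 * &2) =' ((&0 * &0) + (&1 * &1)))

/-- `-1` is no square. -/
def negOneAxiom : Language.ring.Sentence :=
  ∀' (∼((&0 * &0) =' (-1 : Language.ring.Term _)))

/-- The theory of real closed fields. -/
def theoryRCF : Language.ring.Theory :=
  Theory.field ∪ {squareOrNegAxiom, pythagoreanAxiom, negOneAxiom} ∪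
    genericMonicPolyHasRoot '' {n | Odd n}

variable {K : Type*}

theorem realize_squareOrNegAxiom [Field K] [CompatibleRing K] :
    K ⊨ squareOrNegAxiom ↔ ∀ x : K, ∃ y, y * y = x ∨ y * y = -x := by
  simp [squareOrNegAxiom, Sentence.Realize, Formula.Realize, Fin.snoc]

theorem realize_pythagoreanAxiom [Field K] [CompatibleRing K] :
    K ⊨ pythagoreanAxiom ↔ ∀ x y : K, ∃ z, z * z = x * x + y * y := by
  simp [pythagoreanAxiom, Sentence.Realize, Formula.Realize, Fin.snoc]

theorem realize_negOneAxiom [Field K] [CompatibleRing K] :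
    K ⊨ negOneAxiom ↔ ∀ x : K, x * x ≠ -1 := by
  simp [negOneAxiom, Sentence.Realize, Formula.Realize, Fin.snoc]

theorem model_theoryRCF (K : Type*) [Field K] [IsRealClosed K] [CompatibleRing K] :
    theoryRCF.Model K := by
  obtain ⟨o, ho⟩ := exists_linearOrder_of_isRealClosed K
  refine Theory.model_union_iff.2 ⟨Theory.model_union_iff.2 ⟨inferInstance, ?_⟩, ?_⟩
  · simp only [Theory.model_iff, Set.mem_insert_iff, Set.mem_singleton_iff, forall_eq_or_imp,
      forall_eq, realize_squareOrNegAxiom, realize_pythagoreanAxiom, realize_negOneAxiom]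
    refine ⟨fun x => ?_, fun x y => ?_, fun x h => ?_⟩
    · rcases IsRealClosed.isSquare_or_isSquare_neg x with ⟨y, hy⟩ | ⟨y, hy⟩
      · exact ⟨y, Or.inl hy.symm⟩
      · exact ⟨y, Or.inr hy.symm⟩
    · obtain ⟨z, hz⟩ := IsSquare.of_nonneg
        (add_nonneg (mul_self_nonneg x) (mul_self_nonneg y))
      exact ⟨z, hz.symm⟩
    · nlinarith [mul_self_nonneg x]
  · simp only [Theory.model_iff, Set.mem_image, forall_exists_index, and_imp]
    rintro _ n hn rfl
    rw [realize_genericMonicPolyHasRoot]
    rintro ⟨p, -, rfl⟩
    exact IsRealClosed.exists_isRoot_of_odd_natDegree hn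

theorem isRealClosed_of_model (K : Type*) [Field K] [CompatibleRing K] [h : theoryRCF.Model K] :
    IsRealClosed K := by
  have h' := Theory.model_union_iff.1 h
  have h1 := (Theory.model_union_iff.1 h'.1).2
  have h2 := h'.2
  simp only [Theory.model_iff, Set.mem_insert_iff, Set.mem_singleton_iff, forall_eq_or_imp,
    forall_eq, realize_squareOrNegAxiom, realize_pythagoreanAxiom, realize_negOneAxiom] at h1
  obtain ⟨hsq, hpyth, hneg⟩ := h1
  have hsum : ∀ s : K, IsSumSq s → ∃ z, z * z = s := fun s hs => by
    induction hs with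
    | zero => exact ⟨0, mul_zero _⟩
    | sq_add a _ ih =>
      obtain ⟨b, rfl⟩ := ih
      exact hpyth a b
  refine { toIsSemireal := IsSemireal.of_not_isSumSq_neg_one fun hs => ?_,
           isSquare_or_isSquare_neg := fun x => ?_,
           exists_isRoot_of_odd_natDegree := fun {f} hf => ?_ }
  · obtain ⟨z, hz⟩ := hsum _ hs
    exact hneg z hz
  · obtain ⟨y, hy | hy⟩ := hsq x
    · exact Or.inl ⟨y, hy.symm⟩
    · exact Or.inr ⟨y, hy.symm⟩
  · have hf0 : f ≠ 0 := fun e => by simp [e] at hf
    simp only [Theory.model_iff, Set.mem_image, forall_exists_index, and_imp] at h2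
    have := h2 _ f.natDegree hf rfl
    rw [realize_genericMonicPolyHasRoot] at this
    obtain ⟨x, hx⟩ := this ⟨f * Polynomial.C f.leadingCoeff⁻¹,
      Polynomial.monic_mul_leadingCoeff_inv hf0,
      Polynomial.natDegree_mul_C (inv_ne_zero (Polynomial.leadingCoeff_ne_zero.2 hf0))⟩
    refine ⟨x, ?_⟩
    rw [Polynomial.eval_mul, Polynomial.eval_C, mul_eq_zero] at hx
    exact hx.resolve_right (inv_ne_zero (Polynomial.leadingCoeff_ne_zero.2 hf0))

theorem isRealClosed_real : IsRealClosed ℝ := isRealClosed_of_polyIVT ℝ

/-- **Tarski: the theory of real closed fields is complete.** -/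
theorem theoryRCF_isComplete : theoryRCF.IsComplete := by
  let := compatibleRingOfRing ℝ
  haveI := isRealClosed_real
  haveI := model_theoryRCF ℝ
  refine ⟨Theory.Model.isSatisfiable ℝ, fun φ => ?_⟩
  by_cases hφ : ℝ ⊨ φ
  · left
    intro M v xs
    have hmf : Theory.field.Model M := Theory.Model.mono M.is_model
      (Set.subset_union_of_subset_left Set.subset_union_left _)
    let _ := fieldOfModelField M
    let _ := compatibleRingOfModelField M
    haveI := isRealClosed_of_model M
    have := ((elementarilyEquivalent_iff.1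
      (elementarilyEquivalent_realClosed ℝ M)) φ).1 hφ
    rwa [Subsingleton.elim v default, Subsingleton.elim xs default]
  · right
    intro M v xs
    have hmf : Theory.field.Model M := Theory.Model.mono M.is_model
      (Set.subset_union_of_subset_left Set.subset_union_left _)
    let _ := fieldOfModelField M
    let _ := compatibleRingOfModelField M
    haveI := isRealClosed_of_model M
    have := fun h => hφ (((elementarilyEquivalent_iff.1
      (elementarilyEquivalent_realClosed ℝ M)) φ).2 h)
    rw [Subsingleton.elim v default, Subsingleton.elim xs default]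
    exact this

section definable

variable [Field K] [LinearOrder K] [IsStrictOrderedRing K] [IsRealClosed K] [CompatibleRing K]
  {n m : ℕ}

/-- **A definable set is semialgebraic**, parameters `a` allowed. -/
theorem isSemialgebraic_definable (φ : Language.ring.Formula (Fin n ⊕ Fin m)) (a : Fin m → K) :
    IsSemialgebraic {x : Fin n → K | φ.Realize (Sum.elim x a)} := by
  classical
  haveI := polyIVT_of_isRealClosed (R := K)
  set P := (qePolys φ).image fun p => p.eval₂ ((MvPolynomial.C).comp (Int.castRingHom K))
    (Sum.elim (Sum.elim MvPolynomial.X fun j => MvPolynomial.C (a j)) Fin.elim0)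
  refine isSemialgebraic_of_signDetermined (P := P) fun x y h => ?_
  refine realize_iff_of_sign (K := K) (L := K) φ _ _ _ _ fun p hp => ?_
  have h' := h _ (Finset.mem_image_of_mem _ hp)
  rw [MvPolynomial.eval₂_comp_left, MvPolynomial.eval₂_comp_left] at h'
  convert h' using 3 <;>
  first
    | (funext i; rcases i with (i | i) | i <;> first | exact i.elim0 | simp)
    | (ext b; simp)

/-- The one variable case: a definable set is locally constant off finitely many points. -/
theorem definable_exists_finset (φ : Language.ring.Formula (Fin 1 ⊕ Fin m)) (a : Fin m → K) :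
    ∃ F : Finset K, ∀ s t : K, s ≤ t → (∀ c ∈ F, c < s ∨ t < c) →
      (φ.Realize (Sum.elim (fun _ => s) a) ↔ φ.Realize (Sum.elim (fun _ => t) a)) :=
  haveI := polyIVT_of_isRealClosed (R := K)
  (isSemialgebraic_definable φ a).exists_finset

end definable

/-- **`ℕ` is not definable in the real field**, whatever the parameters. -/
theorem nat_not_definable [CompatibleRing ℝ] {m : ℕ}
    (φ : Language.ring.Formula (Fin 1 ⊕ Fin m)) (a : Fin m → ℝ) :
    ¬ ∀ x : ℝ, φ.Realize (Sum.elim (fun _ => x) a) ↔ ∃ k : ℕ, x = k := by
  intro h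
  haveI := isRealClosed_real
  obtain ⟨F, hF⟩ := definable_exists_finset φ a
  obtain ⟨N, hN⟩ : ∃ N : ℕ, ∀ c ∈ F, c < (N : ℝ) := by
    obtain ⟨B, hB⟩ := (F.finite_toSet).bddAbove
    obtain ⟨N, hN⟩ := exists_nat_gt B
    exact ⟨N, fun c hc => (hB hc).trans_lt hN⟩
  have := (hF N (N + 1 / 2) (by norm_num) fun c hc => Or.inl (hN c hc)).1 ((h _).2 ⟨N, rfl⟩)
  obtain ⟨k, hk⟩ := (h _).1 this
  have h1 : ((2 * N + 1 : ℕ) : ℝ) = ((2 * k : ℕ) : ℝ) := by push_cast; linarith
  have := Nat.cast_injective h1
  omega

end Fermat.Agent.TarskiSeidenberg
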