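import Fermat.Agent.TarskiSeidenberg.Semialgebraic
import Mathlib.ModelTheory.Algebra.Field.IsAlgClosed

/-!
# Quantifier elimination and completeness for real closed fields

For every formula of the language of rings there is a finite set of integral polynomials whose
signs decide it, uniformly in all real closed fields; so these fields are elementarily equivalent
and their theory is complete.
-/

set_option autoImplicit false
set_option linter.unusedSectionVars false
set_option linter.style.haveILetI false

noncomputable section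

namespace Fermat.Agent.TarskiSeidenberg

open FirstOrder FirstOrder.Ring FirstOrder.Language
open Fermat.Agent.HilbertSeventeen

universe u v w

variable {α : Type w}

/-- The polynomial of a term. -/
def termPoly {β : Type*} : Language.ring.Term β → MvPolynomial β ℤ
  | .var b => MvPolynomial.X b
  | .func .add ts => termPoly (ts 0) + termPoly (ts 1)
  | .func .mul ts => termPoly (ts 0) * termPoly (ts 1)
  | .func .neg ts => -termPoly (ts 0)
  | .func .zero _ => 0
  | .func .one _ => 1

theorem realize_termPoly {β : Type*} {K : Type*} [CommRing K] [CompatibleRing K] (v : β → K)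
    (t : Language.ring.Term β) :
    t.realize v = (termPoly t).eval₂ (Int.castRingHom K) v := by
  induction t with
  | var b => simp [termPoly, Term.realize]
  | func f ts ih => cases f <;> simp [termPoly, Term.realize, ih]

/-- Making the last bound variable the variable of a univariate polynomial. -/
def lastVar (l : ℕ) : MvPolynomial (α ⊕ Fin (l + 1)) ℤ →+*
    Polynomial (MvPolynomial (α ⊕ Fin l) ℤ) :=
  MvPolynomial.eval₂Hom ((Polynomial.C).comp MvPolynomial.C)
    (Sum.elim (fun a => Polynomial.C (MvPolynomial.X (Sum.inl a)))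
      (Fin.snoc (fun i => Polynomial.C (MvPolynomial.X (Sum.inr i))) Polynomial.X))

theorem eval₂_lastVar {K : Type*} [CommRing K] (v : α → K) {l : ℕ} (xs : Fin l → K) (t : K)
    (p : MvPolynomial (α ⊕ Fin (l + 1)) ℤ) :
    (lastVar l p).eval₂ (MvPolynomial.eval₂Hom (Int.castRingHom K) (Sum.elim v xs)) t =
      p.eval₂ (Int.castRingHom K) (Sum.elim v (Fin.snoc xs t)) := by
  have h : (Polynomial.eval₂RingHom
      (MvPolynomial.eval₂Hom (Int.castRingHom K) (Sum.elim v xs)) t).comp (lastVar l) =
      MvPolynomial.eval₂Hom (Int.castRingHom K) (Sum.elim v (Fin.snoc xs t)) := by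
    refine MvPolynomial.ringHom_ext (fun b => by simp [lastVar]) fun i => ?_
    rcases i with a | i
    · simp [lastVar]
    · refine Fin.lastCases ?_ (fun j => ?_) i <;> simp [lastVar]
  exact DFunLike.congr_fun h p

/-- The polynomials whose signs decide a formula. -/
def qePolys : ∀ {l : ℕ}, Language.ring.BoundedFormula α l →
    Finset (MvPolynomial (α ⊕ Fin l) ℤ)
  | _, .falsum => ∅
  | _, .equal t₁ t₂ => {termPoly t₁ - termPoly t₂}
  | _, .rel _ _ => ∅
  | _, .imp φ ψ => open Classical in qePolys φ ∪ qePolys ψ
  | l, .all φ => open Classical in signConstants ((qePolys φ).image (lastVar l))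

variable {K : Type u} [Field K] [LinearOrder K] [IsStrictOrderedRing K] [PolyIVT K]
  [CompatibleRing K] {L : Type v} [Field L] [LinearOrder L] [IsStrictOrderedRing L] [PolyIVT L]
  [CompatibleRing L]

/-- **Quantifier elimination**: the signs of `qePolys φ` decide `φ`, in all fields at once. -/
theorem realize_iff_of_sign : ∀ {l : ℕ} (φ : Language.ring.BoundedFormula α l)
    (v : α → K) (xs : Fin l → K) (w : α → L) (ys : Fin l → L),
    (∀ p ∈ qePolys φ, SignType.sign (p.eval₂ (Int.castRingHom K) (Sum.elim v xs)) =
      SignType.sign (p.eval₂ (Int.castRingHom L) (Sum.elim w ys))) →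
    (φ.Realize v xs ↔ φ.Realize w ys)
  | _, .falsum, _, _, _, _, _ => Iff.rfl
  | _, .equal t₁ t₂, v, xs, w, ys, h => by
    have h' := h _ (Finset.mem_singleton_self _)
    show t₁.realize (Sum.elim v xs) = t₂.realize (Sum.elim v xs) ↔
      t₁.realize (Sum.elim w ys) = t₂.realize (Sum.elim w ys)
    rw [MvPolynomial.eval₂_sub, MvPolynomial.eval₂_sub] at h'
    simp only [realize_termPoly]
    rw [← sub_eq_zero, ← sign_eq_zero_iff, h', sign_eq_zero_iff, sub_eq_zero]
  | _, .rel R _, _, _, _, _, _ => R.elim
  | _, .imp φ ψ, v, xs, w, ys, h => by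
    classical
    simp only [BoundedFormula.realize_imp]
    exact imp_congr
      (realize_iff_of_sign φ v xs w ys fun p hp => h p (Finset.mem_union_left _ hp))
      (realize_iff_of_sign ψ v xs w ys fun p hp => h p (Finset.mem_union_right _ hp))
  | l, .all φ, v, xs, w, ys, h => by
    classical
    simp only [BoundedFormula.realize_all]
    constructor
    · intro H t
      obtain ⟨u, hu⟩ := exists_sign_point ((qePolys φ).image (lastVar l))
        (MvPolynomial.eval₂Hom (Int.castRingHom L) (Sum.elim w ys))
        (MvPolynomial.eval₂Hom (Int.castRingHom K) (Sum.elim v xs)) (fun c hc => (h c hc).symm) t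
      refine (realize_iff_of_sign φ v _ w _ fun p hp => ?_).1 (H u)
      have := hu _ (Finset.mem_image_of_mem _ hp)
      rwa [eval₂_lastVar, eval₂_lastVar, eq_comm] at this
    · intro H t
      obtain ⟨u, hu⟩ := exists_sign_point ((qePolys φ).image (lastVar l))
        (MvPolynomial.eval₂Hom (Int.castRingHom K) (Sum.elim v xs))
        (MvPolynomial.eval₂Hom (Int.castRingHom L) (Sum.elim w ys)) h t
      refine (realize_iff_of_sign φ v _ w _ fun p hp => ?_).2 (H u)
      have := hu _ (Finset.mem_image_of_mem _ hp)
      rwa [eval₂_lastVar, eval₂_lastVar] at this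

theorem sign_intCast_eq {F : Type*} [Field F] [LinearOrder F] [IsStrictOrderedRing F] (b : ℤ) :
    SignType.sign ((Int.castRingHom F) b) = SignType.sign b := by
  rw [eq_intCast]
  rcases lt_trichotomy b 0 with h | rfl | h
  · rw [sign_neg h, sign_neg (Int.cast_lt_zero.2 h)]
  · simp
  · rw [sign_pos h, sign_pos (Int.cast_pos.2 h)]

/-- Sentences hold in all ordered fields with the intermediate value property or in none. -/
theorem realize_sentence_iff (φ : Language.ring.Sentence) : K ⊨ φ ↔ L ⊨ φ := by
  refine realize_iff_of_sign φ _ _ _ _ fun p _ => ?_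
  obtain ⟨b, rfl⟩ := MvPolynomial.C_surjective (Empty ⊕ Fin 0) p
  rw [MvPolynomial.eval₂_C, MvPolynomial.eval₂_C, sign_intCast_eq, sign_intCast_eq]

theorem exists_linearOrder_of_isRealClosed (F : Type*) [Field F] [IsRealClosed F] :
    ∃ o : LinearOrder F, @IsStrictOrderedRing F _ o.toPartialOrder := by
  classical
  have hsq := IsRealClosed.isSquare_or_isSquare_neg (R := F)
  haveI := hasMemOrNegMem_squaresCone hsq
  let o : LinearOrder F := LinearOrder.mkOfAddGroupCone (squaresCone hsq)
  haveI : IsOrderedRing F := IsOrderedRing.mkOfCone (squaresCone hsq)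
  exact ⟨o, inferInstance⟩

/-- **Tarski**: real closed fields are elementarily equivalent. -/
theorem elementarilyEquivalent_realClosed (F : Type u) (G : Type v) [Field F] [IsRealClosed F]
    [CompatibleRing F] [Field G] [IsRealClosed G] [CompatibleRing G] :
    F ≅[Language.ring] G := by
  obtain ⟨o, ho⟩ := exists_linearOrder_of_isRealClosed F
  obtain ⟨o', ho'⟩ := exists_linearOrder_of_isRealClosed G
  haveI := polyIVT_of_isRealClosed (R := F)
  haveI := polyIVT_of_isRealClosed (R := G)
  exact elementarilyEquivalent_iff.2 fun φ => realize_sentence_iff φ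

variable {n : ℕ}

/-- **Quantifier elimination by sign conditions.** -/
theorem exists_sign_conditions (φ : Language.ring.Formula (Fin n)) :
    ∃ (P : Finset (MvPolynomial (Fin n) ℤ)) (D : Set (P → SignType)),
      ∀ (F : Type u) [Field F] [LinearOrder F] [IsStrictOrderedRing F] [IsRealClosed F]
        [CompatibleRing F] (x : Fin n → F),
        φ.Realize x ↔ (fun p : P => SignType.sign (p.1.eval₂ (Int.castRingHom F) x)) ∈ D := by
  classical
  let := compatibleRingOfRing ℝ
  set P := (qePolys φ).image (MvPolynomial.rename (Sum.elim id Fin.elim0))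
  refine ⟨P, {σ | ∃ y : Fin n → ℝ, φ.Realize y ∧
    ∀ p : P, SignType.sign (p.1.eval₂ (Int.castRingHom ℝ) y) = σ p}, ?_⟩
  intro F _ _ _ _ _ x
  haveI := polyIVT_of_isRealClosed (R := F)
  have key : ∀ y : Fin n → ℝ, (∀ p ∈ P, SignType.sign (p.eval₂ (Int.castRingHom F) x) =
      SignType.sign (p.eval₂ (Int.castRingHom ℝ) y)) → (φ.Realize x ↔ φ.Realize y) := fun y h =>
    realize_iff_of_sign (K := F) (L := ℝ) φ x _ y _ fun p hp => by
      have h' := h _ (Finset.mem_image_of_mem _ hp)
      rw [MvPolynomial.eval₂_rename, MvPolynomial.eval₂_rename] at h'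
      convert h' using 3 <;> congr 1 <;> funext i <;> rcases i with a | j <;>
        first | rfl | exact j.elim0
  constructor
  · intro hx
    obtain ⟨y, hy⟩ := exists_point (Int.castRingHom F) (Int.castRingHom ℝ)
      (fun b => (sign_intCast_eq b).trans (sign_intCast_eq b).symm) n P x
    exact ⟨y, (key y hy).1 hx, fun p => (hy p.1 p.2).symm⟩
  · rintro ⟨y, hy, hs⟩
    exact (key y fun p hp => (hs ⟨p, hp⟩).symm).2 hy

end Fermat.Agent.TarskiSeidenberg
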