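import Fermat.Agent.HilbertSeventeen.ArtinLang
import Fermat.Agent.HilbertSeventeen.RealClosedFTA

/-!
# Semialgebraic sets and their projections

Over an ordered field with the intermediate value property a semialgebraic set is one decided by
the signs of finitely many polynomials; sign determination then shows that projections and
polynomial images of semialgebraic sets are semialgebraic.
-/

set_option autoImplicit false
set_option linter.unusedSectionVars false

noncomputable section

namespace Fermat.Agent.TarskiSeidenberg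

open MvPolynomial Fermat.Agent.HilbertSeventeen

variable {R : Type*} [Field R] [LinearOrder R] [IsStrictOrderedRing R] {n m : ℕ}

/-- The semialgebraic subsets of `R ^ n`: the Boolean algebra of the sets `p = 0` and `0 < p`. -/
inductive IsSemialgebraic : Set (Fin n → R) → Prop
  | zeroSet (p : MvPolynomial (Fin n) R) : IsSemialgebraic {x | eval x p = 0}
  | posSet (p : MvPolynomial (Fin n) R) : IsSemialgebraic {x | 0 < eval x p}
  | compl {s : Set (Fin n → R)} : IsSemialgebraic s → IsSemialgebraic sᶜ
  | union {s t : Set (Fin n → R)} :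
      IsSemialgebraic s → IsSemialgebraic t → IsSemialgebraic (s ∪ t)

theorem isSemialgebraic_univ : IsSemialgebraic (Set.univ : Set (Fin n → R)) := by
  simpa using IsSemialgebraic.zeroSet (0 : MvPolynomial (Fin n) R)

theorem isSemialgebraic_empty : IsSemialgebraic (∅ : Set (Fin n → R)) := by
  simpa using (isSemialgebraic_univ (R := R) (n := n)).compl

theorem IsSemialgebraic.inter {s t : Set (Fin n → R)} (hs : IsSemialgebraic s)
    (ht : IsSemialgebraic t) : IsSemialgebraic (s ∩ t) := by
  have := (hs.compl.union ht.compl).compl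
  rwa [Set.compl_union, compl_compl, compl_compl] at this

theorem isSemialgebraic_biUnion {ι : Type*} (I : Finset ι) {f : ι → Set (Fin n → R)}
    (h : ∀ i ∈ I, IsSemialgebraic (f i)) : IsSemialgebraic (⋃ i ∈ I, f i) := by
  classical
  induction I using Finset.induction_on with
  | empty => simpa using isSemialgebraic_empty
  | insert a I _ ih =>
    rw [Finset.set_biUnion_insert]
    exact (h a (Finset.mem_insert_self a I)).union
      (ih fun i hi => h i (Finset.mem_insert_of_mem hi))

theorem isSemialgebraic_biInter {ι : Type*} (I : Finset ι) {f : ι → Set (Fin n → R)}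
    (h : ∀ i ∈ I, IsSemialgebraic (f i)) : IsSemialgebraic (⋂ i ∈ I, f i) := by
  classical
  induction I using Finset.induction_on with
  | empty => simpa using isSemialgebraic_univ
  | insert a I _ ih =>
    rw [Finset.set_biInter_insert]
    exact (h a (Finset.mem_insert_self a I)).inter
      (ih fun i hi => h i (Finset.mem_insert_of_mem hi))

theorem isSemialgebraic_sign_eq (p : MvPolynomial (Fin n) R) (s : SignType) :
    IsSemialgebraic {x : Fin n → R | SignType.sign (eval x p) = s} := by
  cases s with
  | zero => simpa [sign_eq_zero_iff] using IsSemialgebraic.zeroSet p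
  | pos => simpa [sign_eq_one_iff] using IsSemialgebraic.posSet p
  | neg => simpa [sign_eq_neg_one_iff] using IsSemialgebraic.posSet (-p)

/-- Membership is decided by the signs of the members of `P`. -/
def SignDetermined (s : Set (Fin n → R)) (P : Finset (MvPolynomial (Fin n) R)) : Prop :=
  ∀ x y, (∀ p ∈ P, SignType.sign (eval x p) = SignType.sign (eval y p)) → (x ∈ s ↔ y ∈ s)

theorem exists_signDetermined {s : Set (Fin n → R)} (h : IsSemialgebraic s) :
    ∃ P, SignDetermined s P := by
  classical
  induction h with
  | zeroSet p =>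
    refine ⟨{p}, fun x y e => ?_⟩
    show eval x p = 0 ↔ eval y p = 0
    rw [← sign_eq_zero_iff, e p (Finset.mem_singleton_self p), sign_eq_zero_iff]
  | posSet p =>
    refine ⟨{p}, fun x y e => ?_⟩
    show 0 < eval x p ↔ 0 < eval y p
    rw [← sign_eq_one_iff, e p (Finset.mem_singleton_self p), sign_eq_one_iff]
  | compl _ ih =>
    obtain ⟨P, hP⟩ := ih
    exact ⟨P, fun x y e => not_congr (hP x y e)⟩
  | union _ _ ih ih' =>
    obtain ⟨P, hP⟩ := ih
    obtain ⟨Q, hQ⟩ := ih'
    exact ⟨P ∪ Q, fun x y e => or_congr (hP x y fun p hp => e p (Finset.mem_union_left _ hp))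
      (hQ x y fun p hp => e p (Finset.mem_union_right _ hp))⟩

theorem isSemialgebraic_of_signDetermined {s : Set (Fin n → R)}
    {P : Finset (MvPolynomial (Fin n) R)} (h : SignDetermined s P) : IsSemialgebraic s := by
  classical
  set D : Finset (P → SignType) :=
    Finset.univ.filter fun σ => ∃ x ∈ s, ∀ p : P, SignType.sign (eval x p.1) = σ p
  have he : s = ⋃ σ ∈ D, ⋂ p ∈ (Finset.univ : Finset P),
      {x | SignType.sign (eval x p.1) = σ p} := by
    ext x
    simp only [D, Set.mem_iUnion, Set.mem_iInter, Finset.mem_filter, Finset.mem_univ, true_and,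
      Set.mem_ofPred_eq, forall_const, exists_prop]
    refine ⟨fun hx => ⟨_, ⟨x, hx, fun p => rfl⟩, fun p => rfl⟩, ?_⟩
    rintro ⟨σ, ⟨y, hy, hyσ⟩, hxσ⟩
    exact (h y x fun p hp => (hyσ ⟨p, hp⟩).trans (hxσ ⟨p, hp⟩).symm).1 hy
  rw [he]
  exact isSemialgebraic_biUnion _ fun σ _ =>
    isSemialgebraic_biInter _ fun p _ => isSemialgebraic_sign_eq p.1 (σ p)

theorem isSemialgebraic_iff {s : Set (Fin n → R)} :
    IsSemialgebraic s ↔ ∃ P, SignDetermined s P :=
  ⟨exists_signDetermined, fun ⟨_, h⟩ => isSemialgebraic_of_signDetermined h⟩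

/-- A polynomial map. -/
def polyMap (f : Fin m → MvPolynomial (Fin n) R) (x : Fin n → R) : Fin m → R :=
  fun i => eval x (f i)

/-- Preimages under polynomial maps. -/
theorem IsSemialgebraic.preimage {s : Set (Fin m → R)} (h : IsSemialgebraic s)
    (f : Fin m → MvPolynomial (Fin n) R) : IsSemialgebraic (polyMap f ⁻¹' s) := by
  classical
  obtain ⟨P, hP⟩ := exists_signDetermined h
  refine isSemialgebraic_of_signDetermined (P := P.image (bind₁ f)) fun x y e =>
    hP _ _ fun p hp => ?_
  have key : ∀ z : Fin n → R, eval (polyMap f z) p = eval z (bind₁ f p) := fun z =>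
    DFunLike.congr_fun (ringHom_ext (f := eval (polyMap f z))
      (g := (eval z).comp (bind₁ f).toRingHom) (fun b => by simp) fun i => by simp [polyMap]) p
  rw [key, key]
  exact e _ (Finset.mem_image_of_mem _ hp)

variable [PolyIVT R]

/-- **The theorem of Tarski and Seidenberg**: the projection of a semialgebraic set is
semialgebraic. -/
theorem IsSemialgebraic.projection {s : Set (Fin (n + 1) → R)} (h : IsSemialgebraic s) :
    IsSemialgebraic {x : Fin n → R | ∃ t, Fin.cons t x ∈ s} := by
  classical
  obtain ⟨P, hP⟩ := exists_signDetermined h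
  refine isSemialgebraic_of_signDetermined
    (P := signConstants (P.image fun p => finSuccEquiv R n p)) fun x y e => ?_
  suffices H : ∀ x y : Fin n → R, (∀ c ∈ signConstants (P.image fun p => finSuccEquiv R n p),
      SignType.sign (eval x c) = SignType.sign (eval y c)) →
      (∃ t, Fin.cons t x ∈ s) → ∃ t, Fin.cons t y ∈ s from
    ⟨H x y e, H y x fun c hc => (e c hc).symm⟩
  rintro x y e ⟨t, ht⟩
  obtain ⟨u, hu⟩ := exists_sign_point (P.image fun p => finSuccEquiv R n p)
    (eval₂Hom (RingHom.id R) x) (eval₂Hom (RingHom.id R) y) e t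
  refine ⟨u, (hP _ _ fun p hp => ?_).1 ht⟩
  have h1 := hu _ (Finset.mem_image_of_mem _ hp)
  have key : ∀ (z : Fin n → R) (w : R), eval (Fin.cons w z) p =
      (finSuccEquiv R n p).eval₂ (eval₂Hom (RingHom.id R) z) w := fun z w => by
    rw [← eval₂_id, eval₂_finSuccEquiv]
    simp [Function.comp_def]
  rw [key, key, h1]

/-- Projection along any number of coordinates. -/
theorem IsSemialgebraic.projection_many : ∀ {k : ℕ} {s : Set (Fin (k + n) → R)},
    IsSemialgebraic s → IsSemialgebraic {x : Fin n → R | ∃ y : Fin k → R, Fin.append y x ∈ s}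
  | 0, s, h => by
    have h1 := h.preimage (fun i : Fin (0 + n) => X (Fin.cast (zero_add n) i))
    convert h1 using 1
    ext x
    simp only [Set.mem_ofPred_eq, Set.mem_preimage]
    have e : ∀ y : Fin 0 → R, Fin.append y x = polyMap
        (fun i : Fin (0 + n) => X (Fin.cast (zero_add n) i)) x := fun y => by
      funext i
      rw [show y = Fin.elim0 from funext fun j => j.elim0, Fin.elim0_append]
      simp [polyMap]
    exact ⟨fun ⟨y, hy⟩ => e y ▸ hy, fun hy => ⟨Fin.elim0, (e _).symm ▸ hy⟩⟩
  | k + 1, s, h => by
    have h1 := (h.preimage (fun i : Fin (k + 1 + n) =>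
      X (Fin.cast (Nat.add_right_comm k 1 n) i))).projection.projection_many
    convert h1 using 1
    ext x
    simp only [Set.mem_ofPred_eq, Set.mem_preimage]
    have e : ∀ (t : R) (y : Fin k → R), polyMap (fun i : Fin (k + 1 + n) =>
        X (Fin.cast (Nat.add_right_comm k 1 n) i)) (Fin.cons t (Fin.append y x)) =
        Fin.append (Fin.cons t y) x := fun t y => by
      rw [Fin.append_cons]
      funext i
      simp [polyMap]
    exact ⟨fun ⟨y, hy⟩ => ⟨Fin.tail y, y 0, by rw [e, Fin.cons_self_tail]; exact hy⟩,
      fun ⟨y, t, hy⟩ => ⟨Fin.cons t y, by rw [← e]; exact hy⟩⟩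

/-- **Polynomial images of semialgebraic sets are semialgebraic.** -/
theorem IsSemialgebraic.image {s : Set (Fin n → R)} (h : IsSemialgebraic s)
    (f : Fin m → MvPolynomial (Fin n) R) : IsSemialgebraic (polyMap f '' s) := by
  have h1 : IsSemialgebraic (polyMap (fun i : Fin n => X (Fin.castAdd m i)) ⁻¹' s ∩
      ⋂ j ∈ (Finset.univ : Finset (Fin m)), {z : Fin (n + m) → R |
        eval z (X (Fin.natAdd n j) - rename (Fin.castAdd m) (f j)) = 0}) :=
    (h.preimage _).inter (isSemialgebraic_biInter _ fun j _ => IsSemialgebraic.zeroSet _)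
  convert h1.projection_many using 1
  ext y
  have hx : ∀ x : Fin n → R, polyMap (fun i : Fin n => X (Fin.castAdd m i)) (Fin.append x y) =
      x := fun x => funext fun i => by simp [polyMap]
  simp only [Set.mem_image, Set.mem_inter_iff, Set.mem_preimage, hx, Set.mem_iInter,
    Finset.mem_univ, forall_true_left, Set.mem_ofPred_eq, map_sub, eval_X, Fin.append_right,
    eval_rename, sub_eq_zero]
  refine exists_congr fun x => and_congr_right fun _ => ?_
  simp only [Function.comp_def, Fin.append_left]
  exact ⟨fun e j => (congrFun e j).symm, fun e => funext fun j => (e j).symm⟩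

/-- **In one variable**: away from finitely many points membership is locally constant. -/
theorem IsSemialgebraic.exists_finset {s : Set (Fin 1 → R)} (h : IsSemialgebraic s) :
    ∃ F : Finset R, ∀ a b : R, a ≤ b → (∀ c ∈ F, c < a ∨ b < c) →
      ((fun _ => a) ∈ s ↔ (fun _ => b) ∈ s) := by
  classical
  obtain ⟨P, hP⟩ := exists_signDetermined h
  set χ := eval₂Hom (Polynomial.C : R →+* Polynomial R) fun _ : Fin 1 => Polynomial.X
  have hev : ∀ (p : MvPolynomial (Fin 1) R) (a : R), (χ p).eval a = eval (fun _ => a) p :=
    fun p a => by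
      rw [← Polynomial.coe_evalRingHom, ← RingHom.comp_apply]
      exact DFunLike.congr_fun (ringHom_ext (f := (Polynomial.evalRingHom a).comp χ)
        (g := eval fun _ => a) (fun b => by simp [χ]) fun i => by simp [χ]) p
  refine ⟨P.biUnion fun p => (χ p).roots.toFinset, fun a b hab hc => hP _ _ fun p hp => ?_⟩
  rw [← hev, ← hev]
  rcases eq_or_ne (χ p) 0 with e | e
  · simp [e]
  have hno : ∀ c, a ≤ c → c ≤ b → (χ p).eval c ≠ 0 := fun c h1 h2 e0 => by
    rcases hc c (Finset.mem_biUnion.2 ⟨p, hp, Multiset.mem_toFinset.2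
      ((Polynomial.mem_roots e).2 e0)⟩) with h' | h' <;> linarith
  exact sign_eq_of_no_root _ hab (hno a le_rfl hab) (hno b hab le_rfl)
    fun c h1 h2 => hno c h1.le h2.le

end Fermat.Agent.TarskiSeidenberg
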